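/-
Project BAD, layer L-MOD, block PHI (helper38): the modular equation of prime level `q` for `j`,
with the shape `Φ = X^(q+1) + Y^(q+1) + ∑_{a,b ≤ q} c' a b X^a Y^b`, `c' a b ∈ ℤ`, `c' q q = -1`.

Definitions.  `u = exp (2 π i τ / q)`; the `q + 1` conjugates of `j (q τ)` over `ℚ̄ (j)` are
`j (q τ) = J (u ^ (q * q))` and `j ((τ + b) / q) = J (ζ ^ b * u)`, `b` mod `q`.
-/
import Mathlib
import Fermat.Agent.S24.B.Invariants
import Fermat.Agent.Lib.HeckeHom.Gamma0

set_option autoImplicit false

noncomputable section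

namespace Fermat.Agent.BAD.Model.Phi

open ModularCurve Polynomial Fermat.Agent.S24 Fermat.Agent.S24.B Fermat.Agent.Lib.HeckeHom
open scoped OnePoint

variable (q : ℕ) [NeZero q]

/-- the expansion `J (u ^ q)` of `j (τ)` in the parameter `u`. -/
def Jhat : LaurentSeries Kbar := qExpand Kbar q (Jser 1)

/-- the expansion `J (ζ ^ b * u)` of `j ((τ + b) / q)`. -/
def rtB (b : ZMod q) : LaurentSeries Kbar := twist (zetaK q ^ b.val) (Jser 1)

/-- the expansion `J (u ^ (q * q))` of `j (q τ)`. -/
def rtInf : LaurentSeries Kbar := qExpand Kbar q (qExpand Kbar q (Jser 1))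

/-- the expansions of the `q + 1` conjugates. -/
def rtS (i : OnePoint (ZMod q)) : LaurentSeries Kbar := i.elim (rtInf q) (rtB q)

/-- `∏_b (Y - J (ζ ^ b * u))`. -/
def PsiSer : (LaurentSeries Kbar)[X] := ∏ b : ZMod q, (X - C (rtB q b))

/-- the modular polynomial, as a polynomial in `Y` over the Laurent series in `u`. -/
def PhiSer : (LaurentSeries Kbar)[X] := ∏ i : OnePoint (ZMod q), (X - C (rtS q i))

theorem PhiSer_eq : PhiSer q = (X - C (rtInf q)) * PsiSer q :=
  Fintype.prod_option (fun i : OnePoint (ZMod q) => (X - C (rtS q i)))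

/-- Laurent series all of whose coefficients lie in the subring `B`. -/
def serIn (B : Subring Kbar) : Subring (LaurentSeries Kbar) where
  carrier := {s | ∀ n : ℤ, s.coeff n ∈ B}
  mul_mem' := by
    intro s t hs ht n
    rw [HahnSeries.coeff_mul]
    exact B.sum_mem fun ij _ => B.mul_mem (hs _) (ht _)
  one_mem' := by
    intro n
    rw [HahnSeries.coeff_one]
    split_ifs
    · exact B.one_mem
    · exact B.zero_mem
  add_mem' := by
    intro s t hs ht n
    rw [HahnSeries.coeff_add]
    exact B.add_mem (hs n) (ht n)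
  zero_mem' := by
    intro n
    rw [HahnSeries.coeff_zero]
    exact B.zero_mem
  neg_mem' := by
    intro s hs n
    rw [HahnSeries.coeff_neg]
    exact B.neg_mem (hs n)

theorem mem_serIn {B : Subring Kbar} {s : LaurentSeries Kbar} :
    s ∈ serIn B ↔ ∀ n : ℤ, s.coeff n ∈ B := Iff.rfl

/-- the conjugates, as elements of the algebra `AL q` of functions on the upper half plane. -/
theorem isLevelMat_repT (i : OnePoint (ZMod q)) : IsLevelMat q (repT q i) := by
  have hq : q ≠ 0 := NeZero.ne q
  induction i using OnePoint.rec with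
  | infty =>
    refine ⟨!![(q : ℤ), 0; 0, 1], ?_, ?_, ?_⟩
    · rw [Matrix.det_fin_two_of]; simp; omega
    · rw [Matrix.det_fin_two_of]; simp
    · rw [repT_infty, ModularForm.val_heckeDiagMatrix hq]
      ext a b
      fin_cases a <;> fin_cases b <;> simp
  | coe j =>
    refine ⟨!![1, (j.val : ℤ); 0, (q : ℤ)], ?_, ?_, ?_⟩
    · rw [Matrix.det_fin_two_of]; simp; omega
    · rw [Matrix.det_fin_two_of]; simp
    · rw [repT_coe, ModularForm.val_heckeMatrix hq]
      ext a b
      fin_cases a <;> fin_cases b <;> simp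

def rtAL (i : OnePoint (ZMod q)) : AL q :=
  ⟨fun τ => jfun (repT q i • τ), Algebra.subset_adjoin ⟨repT q i, isLevelMat_repT q i, rfl⟩⟩

/-- the modular polynomial, over `AL q`. -/
def PhiAL : (AL q)[X] := ∏ i : OnePoint (ZMod q), (X - C (rtAL q i))

end Fermat.Agent.BAD.Model.Phi
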