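/-
Project BAD, layer L-MOD, block PHI, node PHI-C1: the `u`-expansions of the conjugates
`j (q τ)`, `j ((τ + b) / q)`.
-/
import Mathlib
import Fermat.Agent.BAD.Model.Phi.Defs

set_option autoImplicit false

noncomputable section

namespace Fermat.Agent.BAD.Model.Phi

open ModularCurve Polynomial Fermat.Agent.S24 Fermat.Agent.S24.B Fermat.Agent.Lib.HeckeHom
open scoped OnePoint MatrixGroups

variable (q : ℕ) [NeZero q]

theorem Expansion.q_pos : (0 : ℤ) < (q : ℤ) := by
  exact_mod_cast Nat.pos_of_ne_zero (NeZero.ne q)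

theorem Expansion.repT_infty_eq :
    repT q ∞ = triMat (q : ℤ) 0 1 (Expansion.q_pos q) one_pos := by
  apply Units.ext
  rw [repT_infty, ModularForm.val_heckeDiagMatrix (NeZero.ne q), coe_triMat]
  ext i j
  fin_cases i <;> fin_cases j <;> simp

theorem Expansion.repT_coe_eq (b : ZMod q) :
    repT q (b : OnePoint (ZMod q)) = triMat 1 (b.val : ℤ) (q : ℤ) one_pos (Expansion.q_pos q) := by
  apply Units.ext
  rw [repT_coe, ModularForm.val_heckeMatrix (NeZero.ne q), coe_triMat]
  ext i j
  fin_cases i <;> fin_cases j <;> simp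

/-- PHI-C1. -/
theorem texp_rtAL (i : OnePoint (ZMod q)) : texp q (rtAL q i) = rtS q i := by
  apply texp_eq
  induction i using OnePoint.rec with
  | infty =>
    have : NeZero (q * q) := ⟨mul_ne_zero (NeZero.ne q) (NeZero.ne q)⟩
    have h := hasTExp_tri (N := q) Stubs.hasTExp_jfun (q : ℤ) 0 1 (Expansion.q_pos q) one_pos
      (q * q) (by push_cast; ring) 1 (by simp)
    rw [twist_one, ← Expansion.repT_infty_eq] at h
    show HasTExp q (fun τ => jfun (repT q ∞ • τ)) (rtInf q)
    rw [rtInf, qExpand_qExpand]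
    exact h
  | coe b =>
    have h := hasTExp_tri (N := q) Stubs.hasTExp_jfun 1 (b.val : ℤ) (q : ℤ) one_pos
      (Expansion.q_pos q) 1 (by push_cast; ring) (zetaK q ^ b.val) (by
        rw [← zpow_natCast, iota_zetaK_zpow]
        push_cast
        rfl)
    rw [qExpand_one_apply, ← Expansion.repT_coe_eq] at h
    exact h

end Fermat.Agent.BAD.Model.Phi
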