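/-
Project BAD, layer L-MOD, block PHI, node PHI-C2: `SL(2, ℤ)` permutes the `q + 1` conjugates
`j ∘ repT q i` of `j (q τ)`.
-/
import Mathlib
import Fermat.Agent.BAD.Model.Phi.Defs

set_option autoImplicit false

noncomputable section

namespace Fermat.Agent.BAD.Model.Phi

open ModularCurve Polynomial Fermat.Agent.S24 Fermat.Agent.S24.B Fermat.Agent.Lib.HeckeHom
open scoped OnePoint MatrixGroups

variable (q : ℕ) [NeZero q]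

/-- every element of `SL(2, ℤ)` lies in `Γ₀(1)`. -/
theorem mem_Gamma0_one_aux (γ : SL(2, ℤ)) : γ ∈ CongruenceSubgroup.Gamma0 1 := by
  rw [CongruenceSubgroup.Gamma0_mem]
  exact Subsingleton.elim _ _

/-- PHI-C2. -/
theorem exists_perm_smul_rtAL [Fact q.Prime] (γ : SL(2, ℤ)) :
    ∃ σ : Equiv.Perm (OnePoint (ZMod q)), ∀ i, γ • rtAL q i = rtAL q (σ i) := by
  have hq1 : ¬ q ∣ 1 := by
    intro h
    exact (Fact.out : q.Prime).one_lt.ne' (Nat.dvd_one.mp h)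
  have H := isHeckeFamily_T (N := 1) (ℓ := q) hq1
  refine ⟨H.permEquiv ⟨γ⁻¹, mem_Gamma0_one_aux γ⁻¹⟩, fun i => ?_⟩
  apply Subtype.ext
  funext τ
  rw [smul_AL_apply]
  show jfun (repT q i • γ⁻¹ • τ) = jfun (repT q (H.perm ⟨γ⁻¹, mem_Gamma0_one_aux γ⁻¹⟩ i) • τ)
  have hs := H.spec ⟨γ⁻¹, mem_Gamma0_one_aux γ⁻¹⟩ i
  rw [incl_apply, incl_apply] at hs
  have h1 : repT q i • γ⁻¹ • τ
      = ((H.coc ⟨γ⁻¹, mem_Gamma0_one_aux γ⁻¹⟩ i : CongruenceSubgroup.Gamma0 1) : SL(2, ℤ)) •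
        repT q (H.perm ⟨γ⁻¹, mem_Gamma0_one_aux γ⁻¹⟩ i) • τ := by
    show repT q i • (Matrix.SpecialLinearGroup.mapGL ℝ γ⁻¹) • τ
      = (Matrix.SpecialLinearGroup.mapGL ℝ
          ((H.coc ⟨γ⁻¹, mem_Gamma0_one_aux γ⁻¹⟩ i : CongruenceSubgroup.Gamma0 1) : SL(2, ℤ))) •
        repT q (H.perm ⟨γ⁻¹, mem_Gamma0_one_aux γ⁻¹⟩ i) • τ
    rw [← mul_smul, ← mul_smul, ← hs]
  rw [h1, Stubs.jfun_smul]

end Fermat.Agent.BAD.Model.Phi
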