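/-
Project BAD, layer L-MOD, block PHI (helper38), nodes PHI-C3, C4, C5: the coefficients of the
modular polynomial are `SL(2, ℤ)`-invariant, hence polynomials in `j`.
-/
import Mathlib
import Fermat.Agent.BAD.Model.Phi.Defs
import Fermat.Agent.BAD.Model.Phi.Expansion
import Fermat.Agent.BAD.Model.Phi.Perm

set_option autoImplicit false

noncomputable section

namespace Fermat.Agent.BAD.Model.Phi

open ModularCurve Polynomial Fermat.Agent.S24 Fermat.Agent.S24.B Fermat.Agent.Lib.HeckeHom
open scoped OnePoint MatrixGroups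

section C

variable (q : ℕ) [NeZero q]

theorem map_smul_PhiAL [Fact q.Prime] (γ : SL(2, ℤ)) :
    (PhiAL q).map (MulSemiringAction.toRingHom SL(2, ℤ) (AL q) γ) = PhiAL q := by
  obtain ⟨σ, hσ⟩ := exists_perm_smul_rtAL q γ
  have h1 : PhiAL q = ∏ i : OnePoint (ZMod q), (X - C (rtAL q (σ i))) :=
    (Equiv.prod_comp σ (fun i => (X - C (rtAL q i) : (AL q)[X]))).symm
  conv_rhs => rw [h1]
  rw [PhiAL, Polynomial.map_prod]
  refine Finset.prod_congr rfl fun i _ => ?_
  rw [Polynomial.map_sub, Polynomial.map_X, Polynomial.map_C, MulSemiringAction.toRingHom_apply,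
    hσ i]

/-- PHI-C3 (file `Phi/Invariant.lean`). -/
theorem smul_coeff_PhiAL [Fact q.Prime] (γ : SL(2, ℤ)) (k : ℕ) :
    γ • (PhiAL q).coeff k = (PhiAL q).coeff k := by
  conv_rhs => rw [← map_smul_PhiAL q γ]
  rw [Polynomial.coeff_map]
  rfl

/-- PHI-C4 (file `Phi/Invariant.lean`). -/
theorem map_texp_PhiAL : (PhiAL q).map (texp q).toRingHom = PhiSer q := by
  rw [PhiAL, PhiSer, Polynomial.map_prod]
  refine Finset.prod_congr rfl fun i _ => ?_
  rw [Polynomial.map_sub, Polynomial.map_X, Polynomial.map_C]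
  congr 2
  exact texp_rtAL q i

/-- PHI-C5 (file `Phi/Invariant.lean`): the coefficients of the modular polynomial are polynomials
in `j`. -/
theorem exists_poly_coeff_PhiSer [Fact q.Prime] (k : ℕ) :
    ∃ p : Kbar[X], (PhiSer q).coeff k = aeval (Jhat q) p := by
  obtain ⟨p, hp⟩ := exists_poly_of_invariant_AL ((PhiAL q).coeff k)
    (fun γ => smul_coeff_PhiAL q γ k)
  refine ⟨p, ?_⟩
  rw [← map_texp_PhiAL, Polynomial.coeff_map]
  show texp q ((PhiAL q).coeff k) = _
  rw [hp, ← Polynomial.aeval_algHom_apply, texp_jd]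
  rfl

end C

end Fermat.Agent.BAD.Model.Phi
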