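/-
Project BAD, layer L-MOD, block PHI, node PHI-B3b (owner helper244):
the leading coefficient of `∏_b (- J (ζ ^ b u))` is `-1`.
-/
import Mathlib
import Fermat.Agent.BAD.Model.Phi.Defs

set_option autoImplicit false

noncomputable section

namespace Fermat.Agent.BAD.Model.Phi

open ModularCurve Polynomial Fermat.Agent.S24 Fermat.Agent.S24.B Fermat.Agent.Lib.HeckeHom

/-- order and leading coefficient of a product of series with a simple pole. -/
theorem lead_prod {C ι : Type*} [Field C] (s : Finset ι) (f : ι → LaurentSeries C)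
    (hf : ∀ i ∈ s, f i ≠ 0 ∧ (f i).order = -1) :
    (∏ i ∈ s, f i) ≠ 0 ∧ (∏ i ∈ s, f i).order = -(s.card : ℤ) ∧
      (∏ i ∈ s, f i).leadingCoeff = ∏ i ∈ s, (f i).leadingCoeff := by
  classical
  induction s using Finset.induction_on with
  | empty => simp
  | insert a s ha ih =>
    obtain ⟨h0, h1, h2⟩ := ih fun i hi => hf i (Finset.mem_insert_of_mem hi)
    obtain ⟨ha0, ha1⟩ := hf a (Finset.mem_insert_self a s)
    rw [Finset.prod_insert ha, Finset.prod_insert ha, Finset.card_insert_of_notMem ha]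
    refine ⟨mul_ne_zero ha0 h0, ?_, ?_⟩
    · rw [HahnSeries.order_mul ha0 h0, ha1, h1]
      push_cast
      ring
    · rw [HahnSeries.leadingCoeff_mul, h2]

/-- the product of the negatives of all `q`-th roots of unity is `-1`. -/
theorem lead_prod_neg_pow {C : Type*} [Field C] (q : ℕ) [NeZero q] {η : C}
    (hη : IsPrimitiveRoot η q) : ∏ b : ZMod q, (-(η ^ b.val)) = -1 := by
  have hq : 0 < q := Nat.pos_of_ne_zero (NeZero.ne q)
  have h1 := congrArg (Polynomial.eval (0 : C)) (X_pow_sub_one_eq_prod hq hη)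
  rw [eval_sub, eval_pow, eval_X, eval_one, zero_pow hq.ne', zero_sub, eval_prod] at h1
  rw [h1]
  refine Finset.prod_bij (fun b _ => η ^ b.val) ?_ ?_ ?_ ?_
  · intro b _
    rw [mem_nthRootsFinset hq, ← pow_mul, mul_comm, pow_mul, hη.pow_eq_one, one_pow]
  · intro b _ c _ h
    exact ZMod.val_injective q (hη.pow_inj (ZMod.val_lt b) (ZMod.val_lt c) h)
  · intro ξ hξ
    rw [mem_nthRootsFinset hq] at hξ
    obtain ⟨i, hi, rfl⟩ := hη.eq_pow_of_pow_eq_one hξ
    exact ⟨(i : ZMod q), Finset.mem_univ _, by rw [ZMod.val_natCast_of_lt hi]⟩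
  · intro b _
    rw [eval_sub, eval_X, eval_C, zero_sub]

theorem lead_coeff_Jser : (Jser 1).coeff (-1 : ℤ) = 1 := by
  rw [Formal.Jser_one, coeffEmb_coeff, coeff_jq_neg_one, map_one]

variable (q : ℕ) [NeZero q]

/-- PHI-B3b (file `Phi/Lead.lean`): the leading coefficient of `∏_b (- J (ζ ^ b u))`. -/
theorem coeff_coeff_zero_PsiSer : ((PsiSer q).coeff 0).coeff (-(q : ℤ)) = -1 := by
  have h1 : (PsiSer q).coeff 0 = ∏ b : ZMod q, (-(rtB q b)) := by
    rw [coeff_zero_eq_eval_zero, PsiSer, eval_prod]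
    refine Finset.prod_congr rfl fun b _ => ?_
    rw [eval_sub, eval_X, eval_C, zero_sub]
  have hord : ∀ b : ZMod q, (-(rtB q b)).order = -1 := by
    intro b
    rw [HahnSeries.order_neg, rtB, order_twist, order_Jser_one]
  have hlead : ∀ b : ZMod q,
      (-(rtB q b)).leadingCoeff = -(((zetaK q : Kbar)⁻¹) ^ b.val) := by
    intro b
    rw [HahnSeries.leadingCoeff_eq, hord b, HahnSeries.coeff_neg, rtB, twist_coeff,
      lead_coeff_Jser, mul_one, zpow_neg_one, Units.val_inv_eq_inv_val, Units.val_pow_eq_pow_val,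
      inv_pow]
  have hne : ∀ b : ZMod q, -(rtB q b) ≠ 0 := by
    intro b h
    have h2 := hlead b
    rw [h, HahnSeries.leadingCoeff_zero] at h2
    exact neg_ne_zero.mpr (pow_ne_zero _ (inv_ne_zero (Units.ne_zero _))) h2.symm
  obtain ⟨-, h3, h4⟩ := lead_prod (Finset.univ : Finset (ZMod q)) (fun b => -(rtB q b))
    fun b _ => ⟨hne b, hord b⟩
  rw [Finset.card_univ, ZMod.card] at h3
  rw [h1, ← h3, ← HahnSeries.leadingCoeff_eq, h4, Finset.prod_congr rfl fun b _ => hlead b]
  apply lead_prod_neg_pow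
  exact ((IsPrimitiveRoot.coe_units_iff).mpr (isPrimitiveRoot_zetaK q)).inv

end Fermat.Agent.BAD.Model.Phi
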