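/-
Project BAD, layer L-MOD, block PHI, node PHI-B3 (helper293): pole orders of the coefficients of
`PsiSer`, `PhiSer`, and the two extreme coefficients of `PhiSer`.
-/
import Mathlib
import Fermat.Agent.BAD.Model.Phi.Defs
import Fermat.Agent.BAD.Model.Phi.Lead

set_option autoImplicit false

noncomputable section

namespace Fermat.Agent.BAD.Model.Phi

open ModularCurve Polynomial Fermat.Agent.S24 Fermat.Agent.S24.B Fermat.Agent.Lib.HeckeHom
open scoped OnePoint MatrixGroups

/-! ### generalities -/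

private theorem ord_coeff_Jser_neg_one : (Jser 1).coeff (-1 : ℤ) = 1 := by
  rw [Formal.Jser_one, coeffEmb_coeff, coeff_jq_neg_one, map_one]

private theorem ord_coeff_Jser_of_lt {n : ℤ} (hn : n < -1) : (Jser 1).coeff n = 0 := by
  rw [Formal.Jser_one, coeffEmb_coeff, coeff_jq_of_lt hn, map_zero]

/-- the coefficient of a product at the sum of the lower bounds. -/
private theorem ord_coeff_mul_bound {s s' : LaurentSeries Kbar} {a b : ℤ}
    (ha : ∀ n : ℤ, n < a → s.coeff n = 0) (hb : ∀ n : ℤ, n < b → s'.coeff n = 0) :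
    (s * s').coeff (a + b) = s.coeff a * s'.coeff b := by
  rw [HahnSeries.coeff_mul]
  refine Finset.sum_eq_single (a, b) ?_ ?_
  · intro ij hij hne
    rw [Finset.mem_antidiagonal] at hij
    obtain ⟨h1, h2, h3⟩ := hij
    exfalso
    have h1' : a ≤ ij.1 := by
      by_contra hlt
      exact h1 (ha _ (not_le.mp hlt))
    have h2' : b ≤ ij.2 := by
      by_contra hlt
      exact h2 (hb _ (not_le.mp hlt))
    apply hne
    ext
    · show ij.1 = a
      omega
    · show ij.2 = b
      omega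
  · intro hnot
    rw [Finset.mem_antidiagonal] at hnot
    by_cases h1 : s.coeff a = 0
    · rw [h1, zero_mul]
    · by_cases h2 : s'.coeff b = 0
      · rw [h2, mul_zero]
      · exact absurd ⟨h1, h2, rfl⟩ hnot

private theorem ord_coeff_X_sub_C_mul (r : LaurentSeries Kbar) (P : (LaurentSeries Kbar)[X])
    (k : ℕ) : ((X - C r) * P).coeff (k + 1) = P.coeff k - r * P.coeff (k + 1) := by
  rw [sub_mul, coeff_sub, coeff_X_mul, coeff_C_mul]

private theorem ord_coeff_X_sub_C_mul_zero (r : LaurentSeries Kbar)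
    (P : (LaurentSeries Kbar)[X]) : ((X - C r) * P).coeff 0 = - (r * P.coeff 0) := by
  rw [sub_mul, coeff_sub, coeff_X_mul_zero, coeff_C_mul, zero_sub]

/-- PHI-B3a: generic bound for the pole orders of the coefficients. -/
theorem coeff_coeff_prod_eq_zero {ι : Type*} (s : Finset ι) (R : ι → LaurentSeries Kbar)
    (hR : ∀ i ∈ s, ∀ n : ℤ, n < -1 → (R i).coeff n = 0) (k : ℕ) (n : ℤ)
    (hn : n < (k : ℤ) - s.card) : ((∏ i ∈ s, (X - C (R i))).coeff k).coeff n = 0 := by
  classical
  induction s using Finset.induction_on generalizing k n with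
  | empty =>
    rw [Finset.prod_empty, coeff_one]
    split_ifs with h
    · subst h
      rw [HahnSeries.coeff_one, if_neg]
      simp only [Finset.card_empty, Nat.cast_zero, sub_zero] at hn
      omega
    · rw [HahnSeries.coeff_zero]
  | insert a s ha ih =>
    have ih' := ih fun i hi => hR i (Finset.mem_insert_of_mem hi)
    have hRa := hR a (Finset.mem_insert_self a s)
    rw [Finset.card_insert_of_notMem ha] at hn
    push_cast at hn
    rw [Finset.prod_insert ha]
    have h2 : (R a * (∏ i ∈ s, (X - C (R i))).coeff k).coeff n = 0 :=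
      coeff_mul_eq_zero_of_lt (a := -1) (b := (k : ℤ) - s.card) hRa (fun m hm => ih' k m hm) n
        (by omega)
    cases k with
    | zero => rw [ord_coeff_X_sub_C_mul_zero, HahnSeries.coeff_neg, h2, neg_zero]
    | succ k =>
      rw [ord_coeff_X_sub_C_mul, HahnSeries.coeff_sub, h2, sub_zero]
      refine ih' k n ?_
      push_cast at hn
      omega

section B

variable (q : ℕ) [NeZero q]

private theorem ord_coeff_rtB_of_lt (b : ZMod q) (n : ℤ) (hn : n < -1) :
    (rtB q b).coeff n = 0 := by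
  rw [rtB, twist_coeff, ord_coeff_Jser_of_lt hn, mul_zero]

private theorem ord_q_pos : (0 : ℤ) < q := by
  exact_mod_cast Nat.pos_of_ne_zero (NeZero.ne q)

private theorem ord_coeff_rtInf_of_lt (n : ℤ) (hn : n < -((q : ℤ) * q)) :
    (rtInf q).coeff n = 0 := by
  have hq := ord_q_pos q
  rw [rtInf]
  by_cases h1 : (q : ℤ) ∣ n
  · obtain ⟨m, rfl⟩ := h1
    rw [qExpand_coeff_mul]
    by_cases h2 : (q : ℤ) ∣ m
    · obtain ⟨l, rfl⟩ := h2
      rw [qExpand_coeff_mul]
      refine ord_coeff_Jser_of_lt ?_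
      by_contra hl
      rw [not_lt] at hl
      have : -((q : ℤ) * q) ≤ (q : ℤ) * (q * l) := by
        have h3 : 0 ≤ (q : ℤ) * q * (l + 1) := mul_nonneg (mul_nonneg hq.le hq.le) (by omega)
        nlinarith
      omega
    · exact qExpand_coeff_of_not_dvd q _ h2
  · exact qExpand_coeff_of_not_dvd q _ h1

private theorem ord_coeff_rtInf : (rtInf q).coeff (-((q : ℤ) * q)) = 1 := by
  rw [rtInf, show -((q : ℤ) * q) = (q : ℤ) * ((q : ℤ) * (-1)) by ring, qExpand_coeff_mul,
    qExpand_coeff_mul, ord_coeff_Jser_neg_one]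

private theorem ord_monic_PsiSer : (PsiSer q).Monic :=
  monic_prod_of_monic _ _ fun _ _ => monic_X_sub_C _

private theorem ord_natDegree_PsiSer : (PsiSer q).natDegree = q := by
  rw [PsiSer, natDegree_prod_of_monic _ _ fun _ _ => monic_X_sub_C _]
  simp only [natDegree_X_sub_C, Finset.sum_const, Finset.card_univ, ZMod.card, smul_eq_mul,
    mul_one]

private theorem ord_coeff_q_PsiSer : (PsiSer q).coeff q = 1 := by
  have h := (ord_monic_PsiSer q).coeff_natDegree
  rwa [ord_natDegree_PsiSer] at h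

/-- PHI-B3c. -/
theorem coeff_coeff_PsiSer_eq_zero (k : ℕ) (n : ℤ) (hn : n < (k : ℤ) - q) :
    ((PsiSer q).coeff k).coeff n = 0 := by
  rw [PsiSer]
  refine coeff_coeff_prod_eq_zero _ _ (fun b _ => ord_coeff_rtB_of_lt q b) k n ?_
  rwa [Finset.card_univ, ZMod.card]

/-- PHI-B3d. -/
theorem coeff_coeff_PhiSer_eq_zero (k : ℕ) (n : ℤ) (hn : n < (k : ℤ) - q - (q : ℤ) * q) :
    ((PhiSer q).coeff k).coeff n = 0 := by
  have hq := ord_q_pos q
  have hqq : 0 < (q : ℤ) * q := mul_pos hq hq
  rw [PhiSer_eq]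
  have h2 : (rtInf q * (PsiSer q).coeff k).coeff n = 0 :=
    coeff_mul_eq_zero_of_lt (a := -((q : ℤ) * q)) (b := (k : ℤ) - q) (ord_coeff_rtInf_of_lt q)
      (coeff_coeff_PsiSer_eq_zero q k) n (by omega)
  cases k with
  | zero => rw [ord_coeff_X_sub_C_mul_zero, HahnSeries.coeff_neg, h2, neg_zero]
  | succ k =>
    rw [ord_coeff_X_sub_C_mul, HahnSeries.coeff_sub, h2, sub_zero]
    refine coeff_coeff_PsiSer_eq_zero q k n ?_
    push_cast at hn
    omega

/-- PHI-B3e. -/
theorem coeff_coeff_zero_PhiSer :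
    ((PhiSer q).coeff 0).coeff (-((q : ℤ) * (q + 1 : ℕ))) = 1 := by
  rw [PhiSer_eq, ord_coeff_X_sub_C_mul_zero, HahnSeries.coeff_neg,
    show -((q : ℤ) * (q + 1 : ℕ)) = -((q : ℤ) * q) + (-(q : ℤ)) by push_cast; ring,
    ord_coeff_mul_bound (ord_coeff_rtInf_of_lt q)
      (fun n hn => coeff_coeff_PsiSer_eq_zero q 0 n (by push_cast; omega)),
    ord_coeff_rtInf, coeff_coeff_zero_PsiSer]
  ring

/-- PHI-B3f. -/
theorem coeff_coeff_q_PhiSer (hq : 2 ≤ q) :
    ((PhiSer q).coeff q).coeff (-((q : ℤ) * q)) = -1 := by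
  obtain ⟨k, rfl⟩ : ∃ k, q = k + 1 := ⟨q - 1, by omega⟩
  rw [PhiSer_eq, ord_coeff_X_sub_C_mul, ord_coeff_q_PsiSer, mul_one, HahnSeries.coeff_sub,
    ord_coeff_rtInf, coeff_coeff_PsiSer_eq_zero, zero_sub]
  have hk : (1 : ℤ) ≤ k := by
    have : 1 ≤ k := by omega
    exact_mod_cast this
  push_cast
  nlinarith

theorem natDegree_PhiSer : (PhiSer q).natDegree = q + 1 := by
  rw [PhiSer_eq, (monic_X_sub_C _).natDegree_mul (ord_monic_PsiSer q), natDegree_X_sub_C,
    ord_natDegree_PsiSer, add_comm]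

end B

end Fermat.Agent.BAD.Model.Phi
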