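/-
Project BAD, layer L-MOD, block PHI (helper38), section D (owner of this file: helper247):
polynomials in `J (u ^ q)`.
-/
import Mathlib
import Fermat.Agent.BAD.Model.Phi.Defs
import Fermat.Agent.S24.Formal
import Fermat.Prelude.Def_ModularCurve_X0ModL

set_option autoImplicit false

noncomputable section

namespace Fermat.Agent.BAD.Model.Phi

open ModularCurve Polynomial Fermat.Agent.S24 Fermat.Agent.S24.B Fermat.Agent.Lib.HeckeHom
open scoped OnePoint MatrixGroups

/-! ### D. polynomials in `J (u ^ q)` (file `Phi/PolyJ.lean`) -/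

section D

variable (q : ℕ) [NeZero q]

/-- PHI-D0: `p (Jhat)` is a series in `u ^ q`. -/
theorem aeval_Jhat (p : Kbar[X]) : aeval (Jhat q) p = qExpand Kbar q (aeval (Jser 1) p) :=
  Polynomial.aeval_algHom_apply (qExpandAlgHomC Kbar q) (Jser 1) p

theorem polyJ_coeff_algebraMap_mul (c : Kbar) (s : LaurentSeries Kbar) (n : ℤ) :
    (algebraMap Kbar (LaurentSeries Kbar) c * s).coeff n = c * s.coeff n := by
  rw [algebraMap_laurentSeries_eq_single, HahnSeries.coeff_single_mul, sub_zero]

/-- the coefficient of `u ^ (- q m)` in `p (Jhat)`, `deg p ≤ m`. -/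
theorem polyJ_coeff_aeval_of_le (p : Kbar[X]) (m : ℕ) (hm : p.natDegree ≤ m) :
    (aeval (Jhat q) p).coeff (-((q : ℤ) * m)) = p.coeff m := by
  have hq : (0 : ℤ) < q := by exact_mod_cast Nat.pos_of_ne_zero (NeZero.ne q)
  rw [Polynomial.aeval_eq_sum_range' (Nat.lt_succ_of_le hm), HahnSeries.coeff_sum,
    Finset.sum_eq_single m]
  · rw [Algebra.smul_def, polyJ_coeff_algebraMap_mul, Jhat, coeff_qExpand_Jser_pow_self, mul_one]
  · intro i hi hne
    rw [Finset.mem_range] at hi
    have hlt : i < m := lt_of_le_of_ne (Nat.lt_succ_iff.mp hi) hne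
    rw [Algebra.smul_def, polyJ_coeff_algebraMap_mul, Jhat, coeff_qExpand_Jser_pow_of_lt, mul_zero]
    have : (i : ℤ) < m := by exact_mod_cast hlt
    nlinarith
  · intro h
    exact absurd (Finset.mem_range.2 (Nat.lt_succ_self _)) h

/-- PHI-D1: the degree and the top coefficient of `p` are read off the polar part of `p (Jhat)`. -/
theorem natDegree_le_of_coeff_aeval_Jhat (p : Kbar[X]) (m : ℕ)
    (h : ∀ n : ℤ, n < -((q : ℤ) * m) → (aeval (Jhat q) p).coeff n = 0) :
    p.natDegree ≤ m ∧ p.coeff m = (aeval (Jhat q) p).coeff (-((q : ℤ) * m)) := by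
  have hq : (0 : ℤ) < q := by exact_mod_cast Nat.pos_of_ne_zero (NeZero.ne q)
  have hle : p.natDegree ≤ m := by
    by_contra hcon
    push Not at hcon
    have h1 := polyJ_coeff_aeval_of_le q p p.natDegree le_rfl
    have h2 : (m : ℤ) < p.natDegree := by exact_mod_cast hcon
    rw [h _ (by nlinarith)] at h1
    have h3 : p = 0 := Polynomial.leadingCoeff_eq_zero.mp h1.symm
    rw [h3, Polynomial.natDegree_zero] at hcon
    exact Nat.not_lt_zero _ hcon
  exact ⟨hle, (polyJ_coeff_aeval_of_le q p m hle).symm⟩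

theorem polyJ_Jser_one_mem (B : Subring Kbar) : Jser 1 ∈ serIn B := by
  intro n
  rw [Formal.Jser_one, coeffEmb_coeff, ← jqModC_rat, coeff_jqModC_eq_intCast, map_intCast]
  exact intCast_mem B _

theorem polyJ_qExpand_mem (B : Subring Kbar) {s : LaurentSeries Kbar} (hs : s ∈ serIn B) :
    qExpand Kbar q s ∈ serIn B := by
  intro n
  by_cases hn : (q : ℤ) ∣ n
  · obtain ⟨m, rfl⟩ := hn
    rw [qExpand_coeff_mul]
    exact hs m
  · rw [qExpand_coeff_of_not_dvd q s hn]
    exact B.zero_mem

theorem polyJ_C_mem (B : Subring Kbar) {c : Kbar} (hc : c ∈ B) :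
    (HahnSeries.C c : LaurentSeries Kbar) ∈ serIn B := by
  intro n
  rw [HahnSeries.C_apply, HahnSeries.coeff_single]
  split_ifs
  · exact hc
  · exact B.zero_mem

theorem polyJ_coeff_mem_aux (B : Subring Kbar) (k : ℕ) : ∀ p : Kbar[X],
    p.natDegree < k → aeval (Jhat q) p ∈ serIn B → ∀ i, p.coeff i ∈ B := by
  have hJ : Jhat q ∈ serIn B := polyJ_qExpand_mem q B (polyJ_Jser_one_mem B)
  induction k with
  | zero => intro p hp; exact absurd hp (Nat.not_lt_zero _)
  | succ k ih =>
    intro p hp hmem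
    have ha : p.leadingCoeff ∈ B := by
      have h1 : (aeval (Jhat q) p).coeff (-((q : ℤ) * p.natDegree)) = p.leadingCoeff :=
        polyJ_coeff_aeval_of_le q p p.natDegree le_rfl
      exact h1 ▸ hmem _
    have hdecomp := Polynomial.eraseLead_add_C_mul_X_pow p
    have hmem' : aeval (Jhat q) p.eraseLead ∈ serIn B := by
      have h1 : aeval (Jhat q) p.eraseLead =
          aeval (Jhat q) p - HahnSeries.C p.leadingCoeff * (Jhat q) ^ p.natDegree := by
        conv_rhs => rw [← hdecomp]
        rw [map_add, map_mul, map_pow, Polynomial.aeval_C, Polynomial.aeval_X,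
          algebraMap_laurentSeries_eq_single]
        simp [HahnSeries.C_apply]
      rw [h1]
      exact Subring.sub_mem _ hmem
        (Subring.mul_mem _ (polyJ_C_mem B ha) (Subring.pow_mem _ hJ _))
    have hrec : ∀ i, p.eraseLead.coeff i ∈ B := by
      rcases Polynomial.eraseLead_natDegree_lt_or_eraseLead_eq_zero p with h | h
      · exact ih _ (by omega) hmem'
      · intro i
        rw [h, Polynomial.coeff_zero]
        exact B.zero_mem
    intro i
    rw [← hdecomp, Polynomial.coeff_add, Polynomial.coeff_C_mul, Polynomial.coeff_X_pow]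
    refine B.add_mem (hrec i) (B.mul_mem ha ?_)
    split_ifs
    · exact B.one_mem
    · exact B.zero_mem

/-- PHI-D2: if `p (Jhat)` has coefficients in the subring `B`, so has `p`. -/
theorem coeff_mem_of_aeval_Jhat_mem (B : Subring Kbar) (p : Kbar[X])
    (h : aeval (Jhat q) p ∈ serIn B) (i : ℕ) : p.coeff i ∈ B :=
  polyJ_coeff_mem_aux q B (p.natDegree + 1) p (Nat.lt_succ_self _) h i

end D

end Fermat.Agent.BAD.Model.Phi
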