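/-
Project BAD, layer L-MOD, block PHI, node PHI-B1: the coefficients of the modular polynomial
`PhiSer q` (a polynomial over the Laurent series in `u`) are series with algebraic integer
coefficients.
-/
import Mathlib
import Fermat.Agent.BAD.Model.Phi.Defs
import Fermat.Prelude.Def_ModularCurve_X0ModL

set_option autoImplicit false

noncomputable section

namespace Fermat.Agent.BAD.Model.Phi

open ModularCurve Polynomial Fermat.Agent.S24 Fermat.Agent.S24.B Fermat.Agent.Lib.HeckeHom
open scoped OnePoint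

/-- the ring of algebraic integers of `Kbar`. -/
abbrev Int_OK : Subring Kbar := (integralClosure ℤ Kbar).toSubring

theorem Int_mem_OK {x : Kbar} : x ∈ Int_OK ↔ IsIntegral ℤ x := Iff.rfl

/-- `J` has integral coefficients: it lies in `serIn B` for every subring `B`. -/
theorem Int_Jser_one_mem (B : Subring Kbar) : Jser 1 ∈ serIn B := by
  intro n
  rw [Formal.Jser_one, coeffEmb_coeff, ← jqModC_rat, coeff_jqModC_eq_intCast, map_intCast]
  exact intCast_mem B _

theorem Int_qExpand_mem (B : Subring Kbar) (e : ℕ) [NeZero e] {s : LaurentSeries Kbar}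
    (hs : s ∈ serIn B) : qExpand Kbar e s ∈ serIn B := by
  intro n
  by_cases hn : (e : ℤ) ∣ n
  · obtain ⟨m, rfl⟩ := hn
    rw [qExpand_coeff_mul]
    exact hs m
  · rw [qExpand_coeff_of_not_dvd e s hn]
    exact B.zero_mem

theorem Int_twist_mem (N : ℕ) [NeZero N] (ξ : Kbarˣ) (hξ : ξ ^ N = 1)
    {s : LaurentSeries Kbar} (hs : s ∈ serIn Int_OK) : twist ξ s ∈ serIn Int_OK := by
  intro n
  rw [twist_coeff]
  refine Int_OK.mul_mem ?_ (hs n)
  rw [Int_mem_OK]
  refine IsIntegral.of_pow (Nat.pos_of_ne_zero (NeZero.ne N)) ?_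
  have : (((ξ ^ n : Kbarˣ) : Kbar)) ^ N = 1 := by
    rw [← Units.val_pow_eq_pow_val, ← zpow_natCast, ← zpow_mul, mul_comm, zpow_mul, zpow_natCast,
      hξ, one_zpow, Units.val_one]
  rw [this]
  exact isIntegral_one

/-- a product of `X - C r`, `r` in a subring, has its coefficients in the subring. -/
theorem Int_coeff_prod_mem {R ι : Type*} [CommRing R] (B : Subring R) (s : Finset ι) (r : ι → R)
    (hr : ∀ i ∈ s, r i ∈ B) (n : ℕ) : (∏ i ∈ s, (X - C (r i))).coeff n ∈ B := by
  have h1 : (∏ i ∈ s, (X - C (r i))) ∈ Polynomial.liftsRing B.subtype := by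
    refine Subring.prod_mem _ fun i hi => ?_
    refine Subring.sub_mem _ ?_ ?_
    · rw [← Polynomial.lifts_iff_liftsRing]
      exact Polynomial.X_mem_lifts _
    · rw [← Polynomial.lifts_iff_liftsRing]
      exact Polynomial.C_mem_lifts B.subtype ⟨r i, hr i hi⟩
  rw [← Polynomial.lifts_iff_liftsRing, Polynomial.lifts_iff_coeff_lifts] at h1
  obtain ⟨b, hb⟩ := h1 n
  rw [← hb]
  exact b.2

variable (q : ℕ) [NeZero q]

theorem Int_rtInf_mem (B : Subring Kbar) : rtInf q ∈ serIn B :=
  Int_qExpand_mem B q (Int_qExpand_mem B q (Int_Jser_one_mem B))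

theorem Int_rtB_mem (b : ZMod q) : rtB q b ∈ serIn Int_OK := by
  refine Int_twist_mem q _ ?_ (Int_Jser_one_mem _)
  rw [← pow_mul, mul_comm, pow_mul, (isPrimitiveRoot_zetaK q).pow_eq_one, one_pow]

theorem Int_rtS_mem (i : OnePoint (ZMod q)) : rtS q i ∈ serIn Int_OK := by
  induction i using OnePoint.rec with
  | infty => exact Int_rtInf_mem q _
  | coe b => exact Int_rtB_mem q b

theorem Int_coeff_PhiSer_mem (k : ℕ) : (PhiSer q).coeff k ∈ serIn Int_OK :=
  Int_coeff_prod_mem _ _ _ (fun i _ => Int_rtS_mem q i) k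

theorem Int_coeff_PsiSer_mem (k : ℕ) : (PsiSer q).coeff k ∈ serIn Int_OK :=
  Int_coeff_prod_mem _ _ _ (fun b _ => Int_rtB_mem q b) k

/-- PHI-B1: the coefficients are algebraic integers. -/
theorem isIntegral_coeff_PhiSer (k : ℕ) (n : ℤ) : IsIntegral ℤ (((PhiSer q).coeff k).coeff n) :=
  Int_coeff_PhiSer_mem q k n

end Fermat.Agent.BAD.Model.Phi
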