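/-
Project BAD, layer L-MOD, block PHI (architect helper38), node PHI-A (proved by helper148).
Newton: in characteristic zero the coefficients of `∏ (X - r i)` lie in every subfield containing
the power sums of the `r i`.
-/
import Mathlib

set_option autoImplicit false

noncomputable section

namespace Fermat.Agent.BAD.Model.Phi

open Polynomial

/-- The elementary symmetric functions lie in every subfield containing the power sums. -/
theorem esymm_mem_of_psum_mem {L : Type*} [Field L] [CharZero L] (L₀ : Subfield L)
    {ι : Type*} [Fintype ι] (r : ι → L) (h : ∀ m : ℕ, ∑ i, r i ^ m ∈ L₀) (k : ℕ) :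
    MvPolynomial.aeval r (MvPolynomial.esymm ι L k) ∈ L₀ := by
  induction k using Nat.strong_induction_on with
  | _ k ih =>
    rcases Nat.eq_zero_or_pos k with rfl | hk
    · rw [MvPolynomial.esymm_zero, map_one]
      exact L₀.one_mem
    · have hN := congrArg (MvPolynomial.aeval r) (MvPolynomial.mul_esymm_eq_sum ι L k)
      rw [map_mul, map_natCast, map_mul, map_pow, map_neg, map_one, map_sum] at hN
      have hk0 : (k : L) ≠ 0 := Nat.cast_ne_zero.2 hk.ne'
      have hmem : (k : L) * MvPolynomial.aeval r (MvPolynomial.esymm ι L k) ∈ L₀ := by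
        rw [hN]
        refine L₀.mul_mem (L₀.pow_mem (L₀.neg_mem L₀.one_mem) _) (L₀.sum_mem ?_)
        intro a ha
        rw [Finset.mem_filter] at ha
        rw [map_mul, map_mul, map_pow, map_neg, map_one]
        refine L₀.mul_mem (L₀.mul_mem (L₀.pow_mem (L₀.neg_mem L₀.one_mem) _) (ih a.1 ha.2)) ?_
        rw [MvPolynomial.psum, map_sum]
        simpa using h a.2
      have e : MvPolynomial.aeval r (MvPolynomial.esymm ι L k) =
          (k : L)⁻¹ * ((k : L) * MvPolynomial.aeval r (MvPolynomial.esymm ι L k)) := by
        rw [← mul_assoc, inv_mul_cancel₀ hk0, one_mul]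
      rw [e]
      exact L₀.mul_mem (L₀.inv_mem (natCast_mem L₀ k)) hmem

/-- PHI-A (Newton): in characteristic zero the coefficients of `∏ (X - r i)` lie in every subfield
containing the power sums of the `r i`. -/
theorem coeff_prod_mem_of_psum_mem {L : Type*} [Field L] [CharZero L] (L₀ : Subfield L)
    {ι : Type*} [Fintype ι] (r : ι → L) (h : ∀ m : ℕ, ∑ i, r i ^ m ∈ L₀) (k : ℕ) :
    (∏ i, (X - C (r i))).coeff k ∈ L₀ := by
  set s : Multiset L := Multiset.map r Finset.univ.val with hs
  have e : (∏ i, (X - C (r i))) = (Multiset.map (fun t => X - C t) s).prod := by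
    rw [hs, Multiset.map_map]
    rfl
  rw [e]
  by_cases hk : k ≤ Multiset.card s
  · rw [Multiset.prod_X_sub_C_coeff s hk, hs,
      ← MvPolynomial.aeval_esymm_eq_multiset_esymm ι L]
    exact L₀.mul_mem (L₀.pow_mem (L₀.neg_mem L₀.one_mem) _) (esymm_mem_of_psum_mem L₀ r h _)
  · rw [Polynomial.coeff_eq_zero_of_natDegree_lt]
    · exact L₀.zero_mem
    · rw [Polynomial.natDegree_multiset_prod_X_sub_C_eq_card]
      exact not_le.1 hk

end Fermat.Agent.BAD.Model.Phi

end
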