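/-
Project BAD, layer L-MOD, block PHI, task PHI-B2 (helper230): the power sums of the conjugates of
`j (q τ)` have rational coefficients; the coefficients of the modular polynomial are integers.
-/
import Mathlib
import Fermat.Agent.BAD.Model.Phi.Defs
import Fermat.Agent.BAD.Model.Phi.Sym
import Fermat.Agent.BAD.Model.Phi.Int

set_option autoImplicit false

noncomputable section

namespace Fermat.Agent.BAD.Model.Phi

open ModularCurve Polynomial Fermat.Agent.S24 Fermat.Agent.S24.B Fermat.Agent.Lib.HeckeHom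
open scoped OnePoint MatrixGroups

namespace RatAux

/-- a series is rational iff its coefficients are. -/
theorem mem_fieldRange_coeffEmb_iff (s : LaurentSeries Kbar) :
    s ∈ (coeffEmb Kbar).fieldRange ↔ ∀ n : ℤ, s.coeff n ∈ (algebraMap ℚ Kbar).range := by
  constructor
  · rintro ⟨r, rfl⟩ n
    exact ⟨r.coeff n, rfl⟩
  · intro h
    choose c hc using h
    refine ⟨⟨c, s.isPWO_support.mono ?_⟩, ?_⟩
    · intro n hn
      simp only [Function.mem_support, HahnSeries.mem_support] at hn ⊢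
      intro h0
      apply hn
      have := hc n
      rw [h0] at this
      exact (map_eq_zero _).1 this
    · ext n
      exact hc n

theorem qExpand_mem_fieldRange (q : ℕ) [NeZero q] {s : LaurentSeries Kbar}
    (hs : s ∈ (coeffEmb Kbar).fieldRange) : qExpand Kbar q s ∈ (coeffEmb Kbar).fieldRange := by
  rw [mem_fieldRange_coeffEmb_iff] at hs ⊢
  intro n
  by_cases hn : (q : ℤ) ∣ n
  · obtain ⟨k, rfl⟩ := hn
    rw [qExpand_coeff_mul]
    exact hs k
  · rw [qExpand_coeff_of_not_dvd q s hn]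
    exact zero_mem _

theorem Jser_one_mem_fieldRange : Jser 1 ∈ (coeffEmb Kbar).fieldRange := ⟨_, rfl⟩

/-- the sum of the powers of a `q`-th root of unity is rational. -/
theorem sum_pow_val_mem (q : ℕ) [NeZero q] (ξ : Kbar) (hξ : ξ ^ q = 1) :
    ∑ b : ZMod q, ξ ^ b.val ∈ (algebraMap ℚ Kbar).range := by
  by_cases h1 : ξ = 1
  · subst h1
    simp only [one_pow, Finset.sum_const, Finset.card_univ, ZMod.card, nsmul_eq_mul, mul_one]
    exact ⟨(q : ℚ), map_natCast _ _⟩
  · have hshift : ξ * ∑ b : ZMod q, ξ ^ b.val = ∑ b : ZMod q, ξ ^ b.val := by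
      calc ξ * ∑ b : ZMod q, ξ ^ b.val = ∑ b : ZMod q, ξ * ξ ^ b.val := Finset.mul_sum _ _ _
        _ = ∑ b : ZMod q, ξ ^ (b + 1).val := Finset.sum_congr rfl fun b _ => by
            rw [ZMod.val_add, ZMod.val_one_eq_one_mod, Nat.add_mod_mod, ← pow_eq_pow_mod _ hξ,
              pow_succ']
        _ = ∑ b : ZMod q, ξ ^ b.val :=
            Equiv.sum_comp (Equiv.addRight (1 : ZMod q)) (fun b => ξ ^ b.val)
    have h0 : (ξ - 1) * ∑ b : ZMod q, ξ ^ b.val = 0 := by
      rw [sub_mul, hshift, one_mul, sub_self]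
    rcases mul_eq_zero.mp h0 with h | h
    · exact absurd (sub_eq_zero.mp h) h1
    · rw [h]
      exact zero_mem _

theorem sum_twist_mem_fieldRange (q : ℕ) [NeZero q] {s : LaurentSeries Kbar}
    (hs : s ∈ (coeffEmb Kbar).fieldRange) :
    ∑ b : ZMod q, twist (zetaK q ^ b.val) s ∈ (coeffEmb Kbar).fieldRange := by
  rw [mem_fieldRange_coeffEmb_iff] at hs ⊢
  intro n
  rw [HahnSeries.coeff_sum]
  have h1 : ∀ b : ZMod q, (twist (zetaK q ^ b.val) s).coeff n
      = (((zetaK q ^ n : Kbarˣ) : Kbar)) ^ b.val * s.coeff n := by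
    intro b
    rw [twist_coeff, ← Units.val_pow_eq_pow_val]
    congr 2
    rw [← zpow_natCast, ← zpow_natCast, ← zpow_mul, ← zpow_mul, mul_comm]
  rw [Finset.sum_congr rfl fun b _ => h1 b, ← Finset.sum_mul]
  refine mul_mem (sum_pow_val_mem q _ ?_) (hs n)
  rw [← Units.val_pow_eq_pow_val, ← zpow_natCast, ← zpow_mul, mul_comm, zpow_mul, zpow_natCast,
    (isPrimitiveRoot_zetaK q).pow_eq_one, one_zpow, Units.val_one]

end RatAux

section B

variable (q : ℕ) [NeZero q]

open RatAux in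
/-- PHI-B2a (file `Phi/Rat.lean`): the power sums have rational coefficients. -/
theorem psum_rtS_mem (m : ℕ) :
    ∑ i : OnePoint (ZMod q), rtS q i ^ m ∈ (coeffEmb Kbar).fieldRange := by
  have h : ∑ i : OnePoint (ZMod q), rtS q i ^ m = rtInf q ^ m + ∑ b : ZMod q, rtB q b ^ m :=
    Fintype.sum_option (fun i : OnePoint (ZMod q) => rtS q i ^ m)
  rw [h]
  refine add_mem (pow_mem ?_ m) ?_
  · exact qExpand_mem_fieldRange q (qExpand_mem_fieldRange q Jser_one_mem_fieldRange)
  · have h2 : ∑ b : ZMod q, rtB q b ^ m = ∑ b : ZMod q, twist (zetaK q ^ b.val) (Jser 1 ^ m) :=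
      Finset.sum_congr rfl fun b _ => by rw [rtB, map_pow]
    rw [h2]
    exact sum_twist_mem_fieldRange q (pow_mem Jser_one_mem_fieldRange m)

/-- PHI-B2 (file `Phi/Rat.lean`). -/
theorem coeff_PhiSer_mem_fieldRange (k : ℕ) : (PhiSer q).coeff k ∈ (coeffEmb Kbar).fieldRange :=
  haveI : CharZero (LaurentSeries Kbar) :=
    charZero_of_injective_algebraMap (algebraMap Kbar (LaurentSeries Kbar)).injective
  coeff_prod_mem_of_psum_mem _ _ (psum_rtS_mem q) k

/-- PHI-B12 (file `Phi/Rat.lean`): the coefficients are integers. -/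
theorem coeff_PhiSer_mem_serIn (k : ℕ) :
    (PhiSer q).coeff k ∈ serIn (Int.castRingHom Kbar).range := by
  rw [mem_serIn]
  intro n
  obtain ⟨r, hr⟩ := (RatAux.mem_fieldRange_coeffEmb_iff _).1 (coeff_PhiSer_mem_fieldRange q k) n
  have hint := isIntegral_coeff_PhiSer q k n
  rw [← hr, isIntegral_algebraMap_iff (algebraMap ℚ Kbar).injective] at hint
  obtain ⟨y, hy⟩ := IsIntegrallyClosed.isIntegral_iff.mp hint
  refine ⟨y, ?_⟩
  rw [← hr, ← hy]
  simp

end B

end Fermat.Agent.BAD.Model.Phi
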