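/-
Project BAD, layer L-MOD, block PHI (helper38): the modular equation of prime level `q`, assembly.
-/
import Mathlib
import Fermat.Agent.BAD.Model.Phi.Defs
import Fermat.Agent.BAD.Model.Phi.PolyJ
import Fermat.Agent.BAD.Model.Phi.Rat
import Fermat.Agent.BAD.Model.Phi.Order
import Fermat.Agent.BAD.Model.Phi.Invariant

set_option autoImplicit false

noncomputable section

namespace Fermat.Agent.BAD.Model.Phi

open ModularCurve Polynomial Fermat.Agent.S24 Fermat.Agent.S24.B Fermat.Agent.Lib.HeckeHom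
open scoped OnePoint MatrixGroups

variable (q : ℕ) [NeZero q]

theorem monic_PhiSer : (PhiSer q).Monic := monic_prod_of_monic _ _ fun _ _ => monic_X_sub_C _

/-- The shape of the modular polynomial. -/
theorem exists_eval_PhiSer [Fact q.Prime] :
    ∃ c' : ℕ → ℕ → ℤ, c' q q = -1 ∧ ∀ Y : LaurentSeries Kbar,
      (PhiSer q).eval Y = Jhat q ^ (q + 1) + Y ^ (q + 1) +
        ∑ a ∈ Finset.range (q + 1), ∑ b ∈ Finset.range (q + 1),
          (c' a b : LaurentSeries Kbar) * Jhat q ^ a * Y ^ b := by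
  have hq2 : 2 ≤ q := (Fact.out : q.Prime).two_le
  have hq0 : (0 : ℤ) < q := by exact_mod_cast Nat.pos_of_ne_zero (NeZero.ne q)
  choose p hp using exists_poly_coeff_PhiSer q
  have hint : ∀ k i, (p k).coeff i ∈ (Int.castRingHom Kbar).range := fun k i =>
    coeff_mem_of_aeval_Jhat_mem q _ (p k) (hp k ▸ coeff_PhiSer_mem_serIn q k) i
  choose z hz using hint
  have hdeg : ∀ k, 1 ≤ k → (p k).natDegree ≤ q ∧
      (p k).coeff q = ((PhiSer q).coeff k).coeff (-((q : ℤ) * q)) := by
    intro k hk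
    rw [hp k]
    apply natDegree_le_of_coeff_aeval_Jhat
    intro n hn
    by_cases hdvd : (q : ℤ) ∣ n
    · obtain ⟨m, rfl⟩ := hdvd
      rw [← hp k]
      apply coeff_coeff_PhiSer_eq_zero
      have h1 : m < -(q : ℤ) := by
        by_contra hcon
        push Not at hcon
        nlinarith
      have h2 : (1 : ℤ) ≤ k := by exact_mod_cast hk
      nlinarith
    · rw [aeval_Jhat, qExpand_coeff_of_not_dvd _ _ hdvd]
  have hdeg0 : (p 0).natDegree ≤ q + 1 ∧ (p 0).coeff (q + 1) = 1 := by
    have h := natDegree_le_of_coeff_aeval_Jhat q (p 0) (q + 1) (by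
      intro n hn
      rw [← hp 0]
      apply coeff_coeff_PhiSer_eq_zero
      push_cast at hn ⊢
      nlinarith)
    rw [← hp 0, coeff_coeff_zero_PhiSer] at h
    exact h
  have hsm : ∀ (k a : ℕ), algebraMap Kbar (LaurentSeries Kbar) ((p k).coeff a) * Jhat q ^ a =
      (z k a : LaurentSeries Kbar) * Jhat q ^ a := by
    intro k a
    rw [← hz k a, eq_intCast, map_intCast]
  have hcoeff : ∀ k, (PhiSer q).coeff k = (if k = 0 then Jhat q ^ (q + 1) else 0) +
      ∑ a ∈ Finset.range (q + 1), (z k a : LaurentSeries Kbar) * Jhat q ^ a := by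
    intro k
    rw [hp k]
    by_cases hk : k = 0
    · subst hk
      rw [if_pos rfl, aeval_eq_sum_range' (n := q + 1 + 1) (Nat.lt_succ_of_le hdeg0.1),
        Finset.sum_range_succ, hdeg0.2, Algebra.smul_def, map_one, one_mul, add_comm]
      congr 1
      exact Finset.sum_congr rfl fun a _ => by rw [Algebra.smul_def]; exact hsm 0 a
    · rw [if_neg hk, zero_add,
        aeval_eq_sum_range' (n := q + 1) (Nat.lt_succ_of_le (hdeg k (Nat.pos_of_ne_zero hk)).1)]
      exact Finset.sum_congr rfl fun a _ => by rw [Algebra.smul_def]; exact hsm k a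
  refine ⟨fun a b => z b a, ?_, ?_⟩
  · have h1 := (hdeg q (by omega)).2
    rw [coeff_coeff_q_PhiSer q hq2, ← hz q q, eq_intCast] at h1
    have h2 : ((z q q : ℤ) : Kbar) = ((-1 : ℤ) : Kbar) := by rw [h1]; simp
    exact_mod_cast h2
  · intro Y
    rw [eval_eq_sum_range, natDegree_PhiSer, Finset.sum_range_succ]
    have hlead : (PhiSer q).coeff (q + 1) = 1 := by
      have := (monic_PhiSer q).coeff_natDegree
      rwa [natDegree_PhiSer] at this
    rw [hlead, one_mul]
    have h3 : ∑ b ∈ Finset.range (q + 1), (PhiSer q).coeff b * Y ^ b =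
        Jhat q ^ (q + 1) + ∑ a ∈ Finset.range (q + 1), ∑ b ∈ Finset.range (q + 1),
          (z b a : LaurentSeries Kbar) * Jhat q ^ a * Y ^ b := by
      rw [Finset.sum_comm]
      have h4 : ∀ b ∈ Finset.range (q + 1), (PhiSer q).coeff b * Y ^ b =
          (if b = 0 then Jhat q ^ (q + 1) else 0) +
            ∑ a ∈ Finset.range (q + 1), (z b a : LaurentSeries Kbar) * Jhat q ^ a * Y ^ b := by
        intro b _
        rw [hcoeff b, add_mul, Finset.sum_mul]
        congr 1
        split_ifs with hb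
        · subst hb; simp
        · simp
      rw [Finset.sum_congr rfl h4, Finset.sum_add_distrib, Finset.sum_ite_eq' ]
      simp
    rw [h3]
    ring

theorem eval_rtS (i : OnePoint (ZMod q)) : (PhiSer q).eval (rtS q i) = 0 := by
  rw [PhiSer, eval_prod]
  exact Finset.prod_eq_zero (Finset.mem_univ i) (by simp)

theorem rtS_zero : rtS q ((0 : ZMod q) : OnePoint (ZMod q)) = Jser 1 := by
  show twist (zetaK q ^ (0 : ZMod q).val) (Jser 1) = Jser 1
  rw [ZMod.val_zero, pow_zero, twist_one]

theorem rtS_infty : rtS q ∞ = qExpand Kbar q (Jhat q) := rfl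

/-- **The modular equation of prime level `q`**, over `ℚ̄`. -/
theorem exists_modEq_Kbar [Fact q.Prime] :
    ∃ c' : ℕ → ℕ → ℤ, c' q q = -1 ∧
      (Jser 1 ^ (q + 1) + Jhat q ^ (q + 1) +
        ∑ a ∈ Finset.range (q + 1), ∑ b ∈ Finset.range (q + 1),
          (c' a b : LaurentSeries Kbar) * Jser 1 ^ a * Jhat q ^ b = 0) ∧
      (Jhat q ^ (q + 1) + Jser 1 ^ (q + 1) +
        ∑ a ∈ Finset.range (q + 1), ∑ b ∈ Finset.range (q + 1),
          (c' a b : LaurentSeries Kbar) * Jhat q ^ a * Jser 1 ^ b = 0) := by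
  obtain ⟨c', h1, h2⟩ := exists_eval_PhiSer q
  refine ⟨c', h1, ?_, ?_⟩
  · have h3 := h2 (rtS q ∞)
    rw [eval_rtS, rtS_infty] at h3
    apply qExpand_injective (R := Kbar) q
    rw [map_zero, h3]
    simp only [map_add, map_pow, map_sum, map_mul, map_intCast]
    rfl
  · have h3 := h2 (rtS q ((0 : ZMod q) : OnePoint (ZMod q)))
    rw [eval_rtS, rtS_zero] at h3
    exact h3.symm

end Fermat.Agent.BAD.Model.Phi
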