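/-
Project BAD, layer L-MOD, block PHI (helper38): the modular equation of prime level `q`, in the
forms used by the instance: over `ℤ`, over any commutative ring, and as `Rel` (input of `CuspData`).
-/
import Mathlib
import Fermat.Prelude.Def_ModularCurve_X0ModL
import Fermat.Agent.BAD.Model.Phi.Main
import Fermat.Agent.BAD.Model.Input.Rel

set_option autoImplicit false

noncomputable section

namespace Fermat.Agent.BAD.Model.Phi

open ModularCurve Polynomial Fermat.Agent.S24 Fermat.Agent.S24.B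

universe u v w

/-- `X^(q+1) + Y^(q+1) + ∑_{a,b ≤ q} c' a b X^a Y^b`, evaluated in a commutative ring. -/
def modPoly {S : Type*} [CommRing S] (q : ℕ) (c' : ℕ → ℕ → ℤ) (x y : S) : S :=
  x ^ (q + 1) + y ^ (q + 1) +
    ∑ a ∈ Finset.range (q + 1), ∑ b ∈ Finset.range (q + 1), (c' a b : S) * x ^ a * y ^ b

theorem map_modPoly {S T : Type*} [CommRing S] [CommRing T] (f : S →+* T) (q : ℕ)
    (c' : ℕ → ℕ → ℤ) (x y : S) : f (modPoly q c' x y) = modPoly q c' (f x) (f y) := by
  simp only [modPoly, map_add, map_pow, map_sum, map_mul, map_intCast]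

theorem coeffMap_qExpand_phi {R S : Type*} [CommRing R] [CommRing S] (f : R →+* S) (n : ℕ)
    [NeZero n] (x : LaurentSeries R) :
    coeffMap f (qExpand R n x) = qExpand S n (coeffMap f x) := by
  ext k
  by_cases hk : (n : ℤ) ∣ k
  · obtain ⟨m, rfl⟩ := hk
    rw [coeffMap_coeff, qExpand_coeff_mul, qExpand_coeff_mul, coeffMap_coeff]
  · rw [coeffMap_coeff, qExpand_coeff_of_not_dvd n _ hk, qExpand_coeff_of_not_dvd n _ hk,
      map_zero]

theorem coeffMap_injective_phi {R S : Type*} [CommRing R] [CommRing S] (f : R →+* S)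
    (hf : Function.Injective f) : Function.Injective (coeffMap f) := by
  intro x y h
  ext k
  apply hf
  rw [← coeffMap_coeff, ← coeffMap_coeff, h]

theorem Jser_one_eq : Jser 1 = coeffMap (Int.castRingHom Kbar) (jqModC ℤ) := by
  rw [coeffMap_jqModC, Formal.Jser_one, ← jqModC_rat]
  exact coeffMap_jqModC _

variable (q : ℕ) [NeZero q]

/-- **The modular equation of prime level `q`** over `ℤ`. -/
theorem exists_modEq_int [Fact q.Prime] :
    ∃ c' : ℕ → ℕ → ℤ, c' q q = -1 ∧
      modPoly q c' (jqModC ℤ) (qExpand ℤ q (jqModC ℤ)) = 0 ∧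
      modPoly q c' (qExpand ℤ q (jqModC ℤ)) (jqModC ℤ) = 0 := by
  obtain ⟨c', h1, h2, h3⟩ := exists_modEq_Kbar q
  have hinj := coeffMap_injective_phi (Int.castRingHom Kbar) Int.cast_injective
  have hJ : Jhat q = coeffMap (Int.castRingHom Kbar) (qExpand ℤ q (jqModC ℤ)) := by
    rw [coeffMap_qExpand_phi, ← Jser_one_eq, Jhat]
  refine ⟨c', h1, hinj ?_, hinj ?_⟩
  · rw [map_zero, map_modPoly, ← Jser_one_eq, ← hJ]
    exact h2
  · rw [map_zero, map_modPoly, ← Jser_one_eq, ← hJ]
    exact h3

/-- **The modular equation of prime level `q`** over any commutative ring, at every level `d`: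
`Φ (j (d z), j (d q z)) = 0 = Φ (j (d q z), j (d z))`. -/
theorem exists_modEq [Fact q.Prime] :
    ∃ c' : ℕ → ℕ → ℤ, c' q q = -1 ∧ ∀ (C : Type u) [CommRing C] (d : ℕ) [NeZero d],
      modPoly q c' (qExpand C d (jqModC C)) (qExpand C d (qExpand C q (jqModC C))) = 0 ∧
      modPoly q c' (qExpand C d (qExpand C q (jqModC C))) (qExpand C d (jqModC C)) = 0 := by
  obtain ⟨c', h1, h2, h3⟩ := exists_modEq_int q
  refine ⟨c', h1, fun C _ d _ => ⟨?_, ?_⟩⟩
  · have h := congrArg (fun s => qExpand C d (coeffMap (Int.castRingHom C) s)) h2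
    simp only [map_zero, map_modPoly, coeffMap_qExpand_phi, coeffMap_jqModC] at h
    exact h
  · have h := congrArg (fun s => qExpand C d (coeffMap (Int.castRingHom C) s)) h3
    simp only [map_zero, map_modPoly, coeffMap_qExpand_phi, coeffMap_jqModC] at h
    exact h

theorem qExpand_jqModC_ne_zero (C : Type*) [CommRing C] [Nontrivial C] (d : ℕ) [NeZero d] :
    qExpand C d (jqModC C) ≠ 0 := by
  intro h
  have h1 : (jqModC C).coeff (-1) = 1 := by
    rw [coeff_jqModC_eq_intCast]
    have h2 : (jqModC ℤ).coeff (-1) = 1 := by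
      have h3 : ((jqModC ℚ).coeff (-1) : ℚ) = 1 := by
        rw [jqModC_rat]
        have h5 := coeff_jq_pow_self 1
        rwa [pow_one] at h5
      rw [coeff_jqModC_eq_intCast] at h3
      exact_mod_cast h3
    rw [h2, Int.cast_one]
  have h4 := congrArg (fun s => s.coeff ((d : ℤ) * (-1))) h
  simp only [qExpand_coeff_mul, HahnSeries.coeff_zero] at h4
  rw [h1] at h4
  exact one_ne_zero h4

/-- The modular equation as the relations `Rel` of `CuspData`.  `φ` is the `q`-expansion map of the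
function field `F`. -/
theorem exists_rel [Fact q.Prime] :
    ∃ c' : ℕ → ℕ → ℤ, c' 0 0 = -1 ∧ ∀ (K₀ : Type u) (F : Type v) (C : Type w) [Field K₀] [Field F]
      [Algebra K₀ F] [CommRing C] [Nontrivial C] (φ : F →+* LaurentSeries C) (d : ℕ) [NeZero d]
      (j j' : F), φ j = qExpand C d (jqModC C) → φ j' = qExpand C d (qExpand C q (jqModC C)) →
      Rel q (fun a b => ((c' a b : ℤ) : K₀)) j⁻¹ j'⁻¹ ∧
      Rel q (fun a b => ((c' a b : ℤ) : K₀)) j'⁻¹ j⁻¹ := by
  obtain ⟨c', h1, h2⟩ := exists_modEq.{w} q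
  refine ⟨fun a b => c' (q - a) (q - b), by simpa using h1, ?_⟩
  intro K₀ F C _ _ _ _ _ φ d _ j j' hj hj'
  have hne : j ≠ 0 := by
    rintro rfl
    rw [map_zero] at hj
    exact qExpand_jqModC_ne_zero C d hj.symm
  have hne' : j' ≠ 0 := by
    rintro rfl
    rw [map_zero, qExpand_qExpand] at hj'
    exact qExpand_jqModC_ne_zero C (d * q) hj'.symm
  obtain ⟨h3, h4⟩ := h2 C d
  rw [← hj, ← hj', ← map_modPoly] at h3 h4
  have h3' := φ.injective (h3.trans (map_zero φ).symm)
  have h4' := φ.injective (h4.trans (map_zero φ).symm)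
  constructor
  · refine rel_of_modEq (c' := fun a b => ((c' a b : ℤ) : K₀)) hne hne' ?_
    simpa only [modPoly, map_intCast] using h3'
  · refine rel_of_modEq (c' := fun a b => ((c' a b : ℤ) : K₀)) hne' hne ?_
    simpa only [modPoly, map_intCast] using h4'

end Fermat.Agent.BAD.Model.Phi
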